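import Mathlib
import Fermat.Agent.MUL.Lib.IgusaDeg.AlgJd

set_option autoImplicit false

/-!
# Separability without modular polynomials

`L` a field of characteristic `ℓ`, `k ⊆ L` a perfect subfield, `j : L` not an `ℓ`-th power in `L`.
Then every element of `L` that is algebraic over `k(j)` is separable over `k(j)`.

Proof.  `1, j, …, j^(ℓ-1)` are linearly independent over `L^ℓ`, and every element of `k(j)` is a
combination of them with coefficients in `k(j)^ℓ`.  If `a` were inseparable, its minimal polynomial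
would be `g(X^ℓ)`; expanding the coefficients of `g` and using the additivity of Frobenius gives
`∑ₛ (∑ᵢ eᵢₛ aⁱ)^ℓ jˢ = 0`, hence nonzero polynomial relations of degree `≤ deg g` for `a`.

Application: `L = k((q))`, `j = q⁻¹ + …` (the order `-1` is not divisible by `ℓ`).
-/

noncomputable section

open Polynomial IntermediateField

namespace Fermat.Agent.RRSep

section StepA

variable {L : Type*} [Field L] (ℓ : ℕ) [hℓ : Fact ℓ.Prime] [CharP L ℓ]

/-- the minimal polynomial of `j` over `L^ℓ` has degree `ℓ` if `j` is not an `ℓ`-th power. -/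
theorem natDegree_minpoly_frobenius_range {j : L} (hj : ∀ y : L, y ^ ℓ ≠ j) :
    (minpoly (frobenius L ℓ).fieldRange j).natDegree = ℓ := by
  classical
  have hjpow : j ^ ℓ ∈ (frobenius L ℓ).fieldRange := ⟨j, rfl⟩
  set Q : Polynomial (frobenius L ℓ).fieldRange := X ^ ℓ - C ⟨j ^ ℓ, hjpow⟩ with hQdef
  have hQ : aeval j Q = 0 := by
    rw [hQdef, map_sub, map_pow, aeval_X, aeval_C]
    exact sub_self _
  have hQmonic : Q.Monic := monic_X_pow_sub_C _ hℓ.out.ne_zero
  have hint : IsIntegral (frobenius L ℓ).fieldRange j := ⟨Q, hQmonic, hQ⟩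
  have hdvd : minpoly (frobenius L ℓ).fieldRange j ∣ Q := minpoly.dvd _ j hQ
  have hQmap : Q.map (algebraMap (frobenius L ℓ).fieldRange L) = (X - C j) ^ ℓ := by
    rw [hQdef, Polynomial.map_sub, Polynomial.map_pow, map_X, map_C, sub_pow_char, ← C_pow]
    rfl
  have hmap : (minpoly (frobenius L ℓ).fieldRange j).map (algebraMap _ L) ∣ (X - C j) ^ ℓ := by
    rw [← hQmap]
    exact Polynomial.map_dvd _ hdvd
  obtain ⟨d, hdle, hassoc⟩ := (dvd_prime_pow (prime_X_sub_C j) ℓ).mp hmap
  have heq : (minpoly (frobenius L ℓ).fieldRange j).map (algebraMap _ L) = (X - C j) ^ d :=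
    eq_of_monic_of_associated ((minpoly.monic hint).map _) ((monic_X_sub_C j).pow d) hassoc
  have hdeg : (minpoly (frobenius L ℓ).fieldRange j).natDegree = d := by
    have := congrArg natDegree heq
    rwa [natDegree_map, natDegree_pow, natDegree_X_sub_C, mul_one] at this
  rw [hdeg]
  by_contra hne
  have hlt : d < ℓ := lt_of_le_of_ne hdle hne
  have hpos : 0 < d := hdeg ▸ minpoly.natDegree_pos hint
  -- the coefficient of `X ^ (d - 1)`
  have hc := congrArg (fun p => p.coeff (d - 1)) heq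
  simp only [coeff_map] at hc
  rw [sub_eq_add_neg, ← C_neg, coeff_X_add_C_pow] at hc
  have hd1 : d - (d - 1) = 1 := by omega
  have hch : d.choose (d - 1) = d := by
    rw [Nat.choose_symm hpos]
    exact Nat.choose_one_right d
  rw [hd1, pow_one, hch] at hc
  obtain ⟨v, hv⟩ := ((minpoly (frobenius L ℓ).fieldRange j).coeff (d - 1)).2
  have hv' : v ^ ℓ = -j * (d : L) := by
    rw [← hc]
    exact hv
  have hd0 : (d : L) ≠ 0 := by
    rw [Ne, CharP.cast_eq_zero_iff L ℓ]
    exact Nat.not_dvd_of_pos_of_lt hpos hlt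
  have hdpow : (d : L) ^ ℓ = d := map_natCast (frobenius L ℓ) d
  apply hj (-(v / (d : L)))
  have hodd : (-(v / (d : L))) ^ ℓ = -((v / (d : L)) ^ ℓ) :=
    map_neg (frobenius L ℓ) (v / (d : L))
  rw [hodd, div_pow, hv', hdpow]
  field_simp

/-- `1, j, …, j^(ℓ-1)` are linearly independent over `L^ℓ`, in explicit form. -/
theorem eq_zero_of_sum_pow_mul_pow_eq_zero {j : L} (hj : ∀ y : L, y ^ ℓ ≠ j)
    (u : Fin ℓ → L) (h : ∑ s, (u s) ^ ℓ * j ^ (s : ℕ) = 0) : ∀ s, u s = 0 := by
  classical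
  have hdeg := natDegree_minpoly_frobenius_range ℓ hj
  have hli := linearIndependent_pow (K := (frobenius L ℓ).fieldRange) j
  have hli' : LinearIndependent (frobenius L ℓ).fieldRange
      (fun s : Fin ℓ => j ^ (s : ℕ)) := by
    have := hli.comp (Fin.cast hdeg.symm) (Fin.cast_injective _)
    exact this
  rw [Fintype.linearIndependent_iff] at hli'
  intro s
  have := hli' (fun s => ⟨(u s) ^ ℓ, ⟨u s, rfl⟩⟩) (by
    rw [← h]
    refine Finset.sum_congr rfl fun s _ => ?_
    rfl) s
  have h0 : (u s) ^ ℓ = 0 := congrArg Subtype.val this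
  exact pow_eq_zero_iff hℓ.out.ne_zero |>.mp h0

end StepA


section StepB

variable {k L : Type*} [Field k] [Field L] [Algebra k L] (ℓ : ℕ) [hℓ : Fact ℓ.Prime]
  [CharP L ℓ]

/-- the subfield `E^ℓ` of `L`. -/
def powSubfield (E : IntermediateField k L) : Subfield L :=
  E.toSubfield.map (frobenius L ℓ)

theorem pow_mem_powSubfield (E : IntermediateField k L) {x : L} (hx : x ∈ E) :
    x ^ ℓ ∈ powSubfield ℓ E :=
  ⟨x, hx, rfl⟩

/-- the `E^ℓ`-span of `1, j, …, j^(ℓ-1)`. -/
def powSpan (E : IntermediateField k L) (j : L) : Submodule (powSubfield ℓ E) L :=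
  Submodule.span (powSubfield ℓ E) (Set.range fun s : Fin ℓ => j ^ (s : ℕ))

theorem pow_mem_powSpan (E : IntermediateField k L) (j : L) {s : ℕ} (hs : s < ℓ) :
    j ^ s ∈ powSpan ℓ E j :=
  Submodule.subset_span ⟨⟨s, hs⟩, rfl⟩

theorem one_mem_powSpan (E : IntermediateField k L) (j : L) : (1 : L) ∈ powSpan ℓ E j := by
  have := pow_mem_powSpan ℓ E j hℓ.out.pos
  simpa using this

theorem smul_pow_mem_powSpan (E : IntermediateField k L) (j : L) {x t : L} (hx : x ∈ E)
    (ht : t ∈ powSpan ℓ E j) : x ^ ℓ * t ∈ powSpan ℓ E j := by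
  have := (powSpan ℓ E j).smul_mem (⟨x ^ ℓ, pow_mem_powSubfield ℓ E hx⟩ : powSubfield ℓ E) ht
  exact this

theorem mul_self_mem_powSpan (E : IntermediateField k L) {j : L} (hj : j ∈ E) {t : L}
    (ht : t ∈ powSpan ℓ E j) : j * t ∈ powSpan ℓ E j := by
  unfold powSpan at ht
  induction ht using Submodule.span_induction with
  | mem x hx =>
    obtain ⟨s, rfl⟩ := hx
    by_cases hs : (s : ℕ) + 1 < ℓ
    · have := pow_mem_powSpan ℓ E j hs
      rwa [pow_succ'] at this
    · have hs' : (s : ℕ) + 1 = ℓ := by have := s.2; omega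
      have h1 : j * j ^ (s : ℕ) = j ^ ℓ * 1 := by rw [← pow_succ', hs', mul_one]
      show j * j ^ (s : ℕ) ∈ powSpan ℓ E j
      rw [h1]
      exact smul_pow_mem_powSpan ℓ E j hj (one_mem_powSpan ℓ E j)
  | zero => simp
  | add x y _ _ hx hy =>
    rw [mul_add]
    exact Submodule.add_mem _ hx hy
  | smul c x _ hx =>
    have : j * c • x = c • (j * x) := by
      rw [Subfield.smul_def, Subfield.smul_def, smul_eq_mul, smul_eq_mul]
      ring
    rw [this]
    exact Submodule.smul_mem _ c hx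

theorem pow_mul_mem_powSpan (E : IntermediateField k L) {j : L} (hj : j ∈ E) (n : ℕ) {t : L}
    (ht : t ∈ powSpan ℓ E j) : j ^ n * t ∈ powSpan ℓ E j := by
  induction n with
  | zero => simpa using ht
  | succ n ih =>
    rw [pow_succ', mul_assoc]
    exact mul_self_mem_powSpan ℓ E hj ih

theorem mul_mem_powSpan (E : IntermediateField k L) {j : L} (hj : j ∈ E) {t t' : L}
    (ht : t ∈ powSpan ℓ E j) (ht' : t' ∈ powSpan ℓ E j) : t * t' ∈ powSpan ℓ E j := by
  unfold powSpan at ht
  induction ht using Submodule.span_induction with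
  | mem x hx =>
    obtain ⟨s, rfl⟩ := hx
    exact pow_mul_mem_powSpan ℓ E hj _ ht'
  | zero => simp
  | add x y _ _ hx hy =>
    rw [add_mul]
    exact Submodule.add_mem _ hx hy
  | smul c x _ hx =>
    have : c • x * t' = c • (x * t') := by
      rw [Subfield.smul_def, Subfield.smul_def, smul_eq_mul, smul_eq_mul]
      ring
    rw [this]
    exact Submodule.smul_mem _ c hx

theorem pow_mem_powSpan' (E : IntermediateField k L) {j : L} (hj : j ∈ E) {t : L}
    (ht : t ∈ powSpan ℓ E j) (n : ℕ) : t ^ n ∈ powSpan ℓ E j := by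
  induction n with
  | zero => simpa using one_mem_powSpan ℓ E j
  | succ n ih =>
    rw [pow_succ]
    exact mul_mem_powSpan ℓ E hj ih ht

variable [PerfectField k] [CharP k ℓ]

/-- every element of `k(j)` is in the `k(j)^ℓ`-span of `1, j, …, j^(ℓ-1)`. -/
theorem mem_powSpan_of_mem_adjoin (j : L) {c : L} (hc : c ∈ k⟮j⟯) :
    c ∈ powSpan ℓ k⟮j⟯ j := by
  have hjE : j ∈ k⟮j⟯ := mem_adjoin_simple_self k j
  induction hc using IntermediateField.adjoin_induction with
  | mem x hx =>
    rw [Set.mem_singleton_iff] at hx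
    subst hx
    have := pow_mem_powSpan ℓ k⟮x⟯ x hℓ.out.one_lt
    simpa using this
  | algebraMap x =>
    obtain ⟨y, hy⟩ := surjective_frobenius k ℓ x
    have h1 : algebraMap k L x = (algebraMap k L y) ^ ℓ * 1 := by
      rw [mul_one, ← map_pow, ← hy]
      rfl
    rw [h1]
    exact smul_pow_mem_powSpan ℓ _ j (IntermediateField.algebraMap_mem _ y)
      (one_mem_powSpan ℓ _ j)
  | add x y _ _ hx hy => exact Submodule.add_mem _ hx hy
  | inv x hxE hx =>
    rcases eq_or_ne x 0 with rfl | hx0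
    · simp
    have h1 : x⁻¹ = (x⁻¹) ^ ℓ * x ^ (ℓ - 1) := by
      obtain ⟨m, hm⟩ : ∃ m, ℓ = m + 1 := ⟨ℓ - 1, by have := hℓ.out.pos; omega⟩
      rw [hm, Nat.add_sub_cancel, inv_pow, pow_succ]
      field_simp
    rw [h1]
    exact smul_pow_mem_powSpan ℓ _ j (inv_mem hxE) (pow_mem_powSpan' ℓ _ hjE hx _)
  | mul x y _ _ hx hy => exact mul_mem_powSpan ℓ _ hjE hx hy

/-- explicit form: every element of `k(j)` is `∑ₛ eₛ^ℓ jˢ` with `eₛ ∈ k(j)`. -/
theorem exists_eq_sum_pow_mul_pow (j : L) (c : k⟮j⟯) :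
    ∃ e : Fin ℓ → k⟮j⟯, (c : L) = ∑ s, ((e s : k⟮j⟯) : L) ^ ℓ * j ^ (s : ℕ) := by
  have hc := mem_powSpan_of_mem_adjoin ℓ j c.2
  unfold powSpan at hc
  rw [Submodule.mem_span_range_iff_exists_fun] at hc
  obtain ⟨w, hw⟩ := hc
  have hw' : ∀ s, ∃ y : k⟮j⟯, ((y : k⟮j⟯) : L) ^ ℓ = (w s : L) := by
    intro s
    obtain ⟨y, hy, hyw⟩ := (w s).2
    exact ⟨⟨y, hy⟩, hyw⟩
  choose e he using hw'
  refine ⟨e, ?_⟩
  rw [← hw]
  refine Finset.sum_congr rfl fun s _ => ?_
  rw [he, Subfield.smul_def, smul_eq_mul]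

end StepB


section Main

variable {k L : Type*} [Field k] [Field L] [Algebra k L] (ℓ : ℕ) [hℓ : Fact ℓ.Prime]
  [PerfectField k] [CharP k ℓ]

/-- **Separability.**  `k` perfect of characteristic `ℓ`, `j : L` not an `ℓ`-th power in `L`:
every element of `L` algebraic over `k(j)` is separable over `k(j)`. -/
theorem isSeparable_of_isAlgebraic_adjoin {j : L} (hj : ∀ y : L, y ^ ℓ ≠ j) {a : L}
    (ha : IsAlgebraic k⟮j⟯ a) : IsSeparable k⟮j⟯ a := by
  classical
  have : CharP L ℓ := charP_of_injective_algebraMap (algebraMap k L).injective ℓ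
  have : CharP k⟮j⟯ ℓ := charP_of_injective_algebraMap (algebraMap k k⟮j⟯).injective ℓ
  have hint : IsIntegral k⟮j⟯ a := ha.isIntegral
  rcases separable_or ℓ (minpoly.irreducible hint) with hsep | ⟨-, g, hg, hgf⟩
  · exact hsep
  exfalso
  have hga : aeval (a ^ ℓ) g = 0 := by
    rw [← expand_aeval, hgf, minpoly.aeval]
  have hg0 : g ≠ 0 := hg.ne_zero
  have hdeg : (minpoly k⟮j⟯ a).natDegree = g.natDegree * ℓ := by
    rw [← hgf, natDegree_expand]
  have hn : 0 < g.natDegree := by
    have := minpoly.natDegree_pos hint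
    rw [hdeg] at this
    exact Nat.pos_of_mul_pos_right this
  -- expand the coefficients of `g`
  choose e he using fun i => exists_eq_sum_pow_mul_pow ℓ j (g.coeff i)
  have key : ∑ s, (∑ i ∈ Finset.range (g.natDegree + 1), ((e i s : k⟮j⟯) : L) * a ^ i) ^ ℓ
      * j ^ (s : ℕ) = 0 := by
    rw [← hga, aeval_eq_sum_range]
    simp only [sum_pow_char, mul_pow, Algebra.smul_def, Finset.sum_mul]
    rw [Finset.sum_comm]
    refine Finset.sum_congr rfl fun i _ => ?_
    have h1 : algebraMap k⟮j⟯ L (g.coeff i) = ((g.coeff i : k⟮j⟯) : L) := rfl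
    rw [h1, he i, Finset.sum_mul]
    refine Finset.sum_congr rfl fun s _ => ?_
    rw [← pow_mul, ← pow_mul, mul_comm i ℓ]
    ring
  have hu := eq_zero_of_sum_pow_mul_pow_eq_zero ℓ hj _ key
  -- some coefficient is nonzero
  obtain ⟨s, hs⟩ : ∃ s, e g.natDegree s ≠ 0 := by
    by_contra hcon
    push Not at hcon
    have h0 : ((g.coeff g.natDegree : k⟮j⟯) : L) = 0 := by
      rw [he]
      refine Finset.sum_eq_zero fun s _ => ?_
      rw [hcon s]
      simp [hℓ.out.ne_zero]
    have : g.leadingCoeff = 0 := by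
      rw [leadingCoeff]
      exact_mod_cast h0
    exact hg0 (leadingCoeff_eq_zero.mp this)
  set h : k⟮j⟯[X] := ∑ i ∈ Finset.range (g.natDegree + 1), C (e i s) * X ^ i with hdef
  have hcoeff : h.coeff g.natDegree = e g.natDegree s := by
    rw [hdef, finsetSum_coeff]
    simp only [coeff_C_mul, coeff_X_pow]
    rw [Finset.sum_eq_single g.natDegree]
    · simp
    · intro b _ hb
      simp [Ne.symm hb]
    · intro hb
      exact absurd (Finset.mem_range.mpr (Nat.lt_succ_self _)) hb
  have hh0 : h ≠ 0 := by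
    intro h0
    rw [h0, coeff_zero] at hcoeff
    exact hs hcoeff.symm
  have hha : aeval a h = 0 := by
    rw [hdef, map_sum]
    simp only [map_mul, aeval_C, map_pow, aeval_X]
    exact hu s
  have hhdeg : h.natDegree ≤ g.natDegree := by
    rw [hdef]
    refine natDegree_sum_le_of_forall_le _ _ fun i hi => ?_
    refine (natDegree_C_mul_X_pow_le _ _).trans ?_
    have := Finset.mem_range.mp hi
    omega
  have hle : (minpoly k⟮j⟯ a).natDegree ≤ h.natDegree :=
    natDegree_le_natDegree (minpoly.degree_le_of_ne_zero k⟮j⟯ a hh0 hha)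
  rw [hdeg] at hle
  have h2 : 2 ≤ ℓ := hℓ.out.two_le
  nlinarith

/-- the same for a whole intermediate field. -/
theorem isSeparable_adjoin_of_forall_isAlgebraic {j : L} (hj : ∀ y : L, y ^ ℓ ≠ j)
    (F : IntermediateField k L) (halg : ∀ a ∈ F, IsAlgebraic k⟮j⟯ a) :
    ∀ a ∈ F, IsSeparable k⟮j⟯ a :=
  fun a ha => isSeparable_of_isAlgebraic_adjoin ℓ hj (halg a ha)

end Main

end Fermat.Agent.RRSep
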